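/-
P-CFT row 802 (SD-LE2), helper73: `LTopOntoStatement`.

`λ² : H²(Γ, M) → H²(dualCx2 C(Γ, M^*(χ))) = Dual (H⁰(Γ, M^*(χ)))` is onto for every good `M`,
if `H³(Γ, N) = 0` for all good `N` and the local trace is nonzero on some `2`-cocycle of `k(χ)`.

Proof: a nonzero invariant `f` of `M^*(χ)` is a surjective equivariant functional
`π : M → k(χ)` with good kernel `N₁`; `H²(M) → H²(k(χ)) → H³(N₁) = 0` is exact, so a cocycle
`a` of `M` maps to `a₀` up to a coboundary, and `a ∪ f = π ∘ a`, hence `t (a ∪ f) = t a₀ ≠ 0`.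
So no nonzero invariant is killed by all the functionals `t (a ∪ ·)`, `a ∈ Z²(M)`; by finite
dimensionality these functionals exhaust the dual of the invariants, and every functional on
`C⁰` vanishing on the invariants is of the form `ξ ∘ d⁰`.
-/
import Fermat.Agent.H13.Cft.WaistV2
import Fermat.Agent.H99.Cft.LvlDelta

set_option autoImplicit false

universe u

open CategoryTheory CategoryTheory.Limits groupCohomology

namespace Fermat.Agent.H73.LTop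

open Fermat.Agent.H13.Cft Fermat.Agent.H19 Fermat.Agent.H99.Cft

noncomputable section

variable {k Γ : Type u} [Field k] [Group Γ] (𝒱 : LevelSys Γ) (χ : Γ →* kˣ)

/-- A level `0`-cocycle is an invariant vector. -/
theorem rho_eq_of_lvlD_zero (M : Rep.{u} k Γ) (y : lvlCochains 𝒱 M 0)
    (hy : lvlD 𝒱 M 0 y = 0) (s : Γ) : M.ρ s (y.1 default) = y.1 default := by
  have h : (lvlD 𝒱 M 0 y).1 (fun _ => s) = 0 := by rw [hy]; rfl
  rw [lvlD_coe, inhomogeneousCochains.d_hom_apply] at h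
  simp only [Fin.sum_univ_succ, Fin.sum_univ_zero] at h
  have h1 : (fun i : Fin 0 => (fun _ : Fin 1 => s) i.succ) = default := Subsingleton.elim _ _
  have h2 : (Fin.contractNth (0 : Fin 1) (fun x1 x2 => x1 * x2) (fun _ : Fin 1 => s)) = default :=
    Subsingleton.elim _ _
  rw [h1, h2] at h
  exact sub_eq_zero.1 (by simpa [sub_eq_add_neg] using h)

/-- The equivariant functional `M → k(χ)` given by an invariant of the twisted dual. -/
def invHom (M : Rep.{u} k Γ) (f : Module.Dual k M)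
    (hf : ∀ s : Γ, (M.dualTwist χ).ρ s f = f) : M ⟶ muRep χ :=
  Rep.ofHom (ρ := M.ρ) ⟨f, fun g => by
    refine LinearMap.ext fun m => ?_
    have h := LinearMap.congr_fun (hf g) (M.ρ g m)
    rw [Rep.dualTwist_ρ_apply] at h
    simp only [LinearMap.smul_apply, LinearMap.comp_apply] at h
    have h3 : M.ρ g⁻¹ (M.ρ g m) = m := by
      rw [← Module.End.mul_apply, ← map_mul, inv_mul_cancel, map_one, Module.End.one_apply]
    rw [h3] at h
    show f (M.ρ g m) = (χ g : k) • f m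
    exact h.symm⟩

@[simp] theorem invHom_hom_apply (M : Rep.{u} k Γ) (f : Module.Dual k M)
    (hf : ∀ s : Γ, (M.dualTwist χ).ρ s f = f) (m : M) :
    (invHom χ M f hf).hom m = f m := rfl

theorem invHom_surjective (M : Rep.{u} k Γ) (f : Module.Dual k M)
    (hf : ∀ s : Γ, (M.dualTwist χ).ρ s f = f) (hf0 : f ≠ 0) :
    Function.Surjective (invHom χ M f hf).hom := by
  obtain ⟨m, hm⟩ : ∃ m, f m ≠ 0 := by
    by_contra h
    push Not at h
    exact hf0 (LinearMap.ext h)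
  intro c
  refine ⟨((c : k) * (f m)⁻¹) • m, ?_⟩
  rw [invHom_hom_apply, map_smul, smul_eq_mul, mul_assoc, inv_mul_cancel₀ hm, mul_one]

/-! ### The kernel sequence -/

/-- The kernel sequence `0 ⟶ ker π ⟶ A ⟶ B ⟶ 0`. -/
def kerSC {A B : Rep.{u} k Γ} (π : A ⟶ B) : ShortComplex (Rep.{u} k Γ) :=
  ShortComplex.mk (kernel.ι π) π (kernel.condition π)

theorem kerSC_shortExact {A B : Rep.{u} k Γ} (π : A ⟶ B) [Epi π] : (kerSC π).ShortExact :=
  haveI : Mono (kerSC π).f := inferInstanceAs (Mono (kernel.ι π))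
  haveI : Epi (kerSC π).g := inferInstanceAs (Epi π)
  ShortComplex.ShortExact.mk (ShortComplex.exact_of_f_is_kernel _ (kernelIsKernel π))

theorem isLGood_kernel {A B : Rep.{u} k Γ} (π : A ⟶ B) (hA : IsLGood 𝒱 A) :
    IsLGood 𝒱 (kernel π) := by
  have hinj : Function.Injective (kernel.ι π).hom :=
    (Rep.mono_iff_injective (kernel.ι π)).1 inferInstance
  have := hA.1
  refine ⟨Module.Finite.of_injective (kernel.ι π).hom.toLinearMap hinj, ?_⟩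
  obtain ⟨N, hN, h⟩ := hA.2
  refine ⟨N, hN, fun s hs => LinearMap.ext fun x => hinj ?_⟩
  rw [Rep.hom_comm_apply, h s hs]
  rfl

/-- If `Hⁿ⁺¹(X₁) = 0` then `Hⁿ(X₂) → Hⁿ(X₃)` is onto. -/
theorem lvlHMap_g_surjective {X : ShortComplex (Rep.{u} k Γ)} (hX : X.ShortExact)
    (hsm : IsSmooth 𝒱 X.X₂) (n : ℕ) (h0 : IsZero (lvlH 𝒱 X.X₁ (n + 1))) :
    Function.Surjective (lvlHMap 𝒱 X.g n).hom := by
  intro z
  have hex := lvlH_exact₃ 𝒱 hX hsm n
  have : Subsingleton (lvlH 𝒱 X.X₁ (n + 1)) := ModuleCat.subsingleton_of_isZero h0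
  exact (hex z).1 (Subsingleton.elim _ _)

/-! ### The cup product with an invariant -/

/-- `a ∪ y = π_y ∘ a` for a `2`-cochain `a` and an invariant `y`. -/
theorem cupLvl_two_zero_eq (M : Rep.{u} k Γ) (a : lvlCochains 𝒱 M 2)
    (y : lvlCochains 𝒱 (M.dualTwist χ) 0) (hy : lvlD 𝒱 (M.dualTwist χ) 0 y = 0) :
    cupLvl 𝒱 (evPairing χ M) 2 0 a y =
      ((lvlMap 𝒱 (invHom χ M (y.1 default) (rho_eq_of_lvlD_zero 𝒱 _ y hy))).f 2).hom a := by
  apply Subtype.ext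
  funext g
  rw [cupLvl_apply, lvlCochainsMap_f_coe]
  have h1 : (fun t : Fin 0 => g (Fin.natAdd 2 t)) = default := Subsingleton.elim _ _
  rw [h1, rho_eq_of_lvlD_zero 𝒱 _ y hy]
  rfl

/-- **Key step**: no nonzero invariant of `M^*(χ)` is killed by all `t (a ∪ ·)`, `a ∈ Z²(M)`. -/
theorem exists_cocycle_trace_ne_zero (Tv : LTrace 𝒱 χ)
    (hH3 : ∀ N : Rep.{u} k Γ, IsLGood 𝒱 N → IsZero (lvlH 𝒱 N 3))
    (a₀ : lvlCochains 𝒱 (muRep χ) 2) (ha₀ : lvlD 𝒱 (muRep χ) 2 a₀ = 0) (hta₀ : Tv.t a₀ ≠ 0)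
    (M : Rep.{u} k Γ) (hM : IsLGood 𝒱 M) (y : lvlCochains 𝒱 (M.dualTwist χ) 0)
    (hy : lvlD 𝒱 (M.dualTwist χ) 0 y = 0) (hy0 : y ≠ 0) :
    ∃ a : lvlCochains 𝒱 M 2, lvlD 𝒱 M 2 a = 0 ∧
      Tv.t (cupLvl 𝒱 (evPairing χ M) 2 0 a y) ≠ 0 := by
  have hf0 : (y.1 default : Module.Dual k M) ≠ 0 := by
    intro h
    apply hy0
    apply Subtype.ext
    funext g
    rw [Subsingleton.elim g default]
    exact h
  have hsurj := invHom_surjective χ M (y.1 default) (rho_eq_of_lvlD_zero 𝒱 _ y hy) hf0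
  have : Epi (invHom χ M (y.1 default) (rho_eq_of_lvlD_zero 𝒱 _ y hy)) :=
    (Rep.epi_iff_surjective _).2 hsurj
  have hX := kerSC_shortExact (invHom χ M (y.1 default) (rho_eq_of_lvlD_zero 𝒱 _ y hy))
  have hsm : IsSmooth 𝒱 (kerSC (invHom χ M (y.1 default)
      (rho_eq_of_lvlD_zero 𝒱 _ y hy))).X₂ := hM.2.isSmooth
  have hs2 := lvlHMap_g_surjective 𝒱 hX hsm 2 (hH3 _ (isLGood_kernel 𝒱 _ hM))
  obtain ⟨z, hz⟩ := hs2 (lvlHMk 𝒱 (muRep χ) 2 a₀ ha₀)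
  obtain ⟨a, ha, rfl⟩ := lvlHMk_surjective 𝒱 M 2 z
  refine ⟨a, ha, ?_⟩
  have hz' : lvlHMk 𝒱 (muRep χ) 2
      (((lvlMap 𝒱 (invHom χ M (y.1 default) (rho_eq_of_lvlD_zero 𝒱 _ y hy))).f 2).hom a)
      (lvlD_map_eq_zero 𝒱 M 2 𝒱 (muRep χ) _ a ha) = lvlHMk 𝒱 (muRep χ) 2 a₀ ha₀ := by
    rw [← lvlHMk_lvlMap]
    exact hz
  obtain ⟨c, hc⟩ := (lvlHMk_succ_eq_iff 𝒱 (muRep χ) 1 _ _ _ _).1 hz'
  rw [cupLvl_two_zero_eq 𝒱 χ M a y hy]
  have h3 : ((lvlMap 𝒱 (invHom χ M (y.1 default) (rho_eq_of_lvlD_zero 𝒱 _ y hy))).f 2).hom a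
      = a₀ + lvlD 𝒱 (muRep χ) 1 c := by
    rw [hc]; abel
  rw [h3, map_add, Tv.t_d, add_zero]
  exact hta₀

/-! ### The functionals `t (a ∪ ·)` exhaust the dual of the invariants -/

/-- Abstract duality step: if the functionals `B a`, `a ∈ Z`, separate the points of `ker d`
(finite-dimensional), then every functional `φ` is of the form `B a - ξ ∘ d` with `a ∈ Z`. -/
theorem exists_dual_of_separating {k V W C : Type*} [Field k] [AddCommGroup V] [Module k V]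
    [AddCommGroup W] [Module k W] [AddCommGroup C] [Module k C] [Module.Finite k W]
    (d : W →ₗ[k] C) (Z : Submodule k V) (B : V →ₗ[k] Module.Dual k W)
    (hsep : ∀ w : W, d w = 0 → w ≠ 0 → ∃ a ∈ Z, B a w ≠ 0) (φ : Module.Dual k W) :
    ∃ a ∈ Z, ∃ ξ : Module.Dual k C, ξ ∘ₗ d = B a - φ := by
  let R : Z →ₗ[k] Module.Dual k (LinearMap.ker d) :=
    ((LinearMap.ker d).subtype.dualMap).comp (B.comp Z.subtype)
  have hco : (LinearMap.range R).dualCoannihilator = ⊥ := by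
    rw [eq_bot_iff]
    intro w hw
    rw [Submodule.mem_dualCoannihilator] at hw
    rw [Submodule.mem_bot]
    by_contra hw0
    obtain ⟨a, ha, hne⟩ := hsep w.1 (LinearMap.mem_ker.1 w.2) (fun h => hw0 (Subtype.ext h))
    exact hne (hw _ (LinearMap.mem_range_self R ⟨a, ha⟩))
  have hR : LinearMap.range R = ⊤ := by
    have h := Subspace.dualCoannihilator_dualAnnihilator_eq (W := LinearMap.range R)
    rw [hco, Submodule.dualAnnihilator_bot] at h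
    exact h.symm
  obtain ⟨a, hRa⟩ : (LinearMap.ker d).subtype.dualMap φ ∈ LinearMap.range R := by
    rw [hR]; exact Submodule.mem_top
  have hann : B a.1 - φ ∈ (LinearMap.ker d).dualAnnihilator := by
    rw [Submodule.mem_dualAnnihilator]
    intro y hy
    have h1 := LinearMap.congr_fun hRa ⟨y, hy⟩
    rw [LinearMap.sub_apply, sub_eq_zero]
    exact h1
  rw [← LinearMap.range_dualMap_eq_dualAnnihilator_ker] at hann
  obtain ⟨ξ, hξ⟩ := hann
  exact ⟨a.1, a.2, ξ, hξ⟩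

theorem finite_lvlCochains_zero (M : Rep.{u} k Γ) (hM : Module.Finite k M) :
    Module.Finite k (lvlCochains 𝒱 M 0) := by
  have := hM
  have : Module.Finite k ((Fin 0 → Γ) → M) := Module.Finite.pi
  infer_instance

/-- Every functional on `C⁰(M^*(χ))` is `λ² a - ξ ∘ d⁰` for a `2`-cocycle `a` of `M`. -/
theorem exists_ltheta2_sub (Tv : LTrace 𝒱 χ)
    (hH3 : ∀ N : Rep.{u} k Γ, IsLGood 𝒱 N → IsZero (lvlH 𝒱 N 3))
    (a₀ : lvlCochains 𝒱 (muRep χ) 2) (ha₀ : lvlD 𝒱 (muRep χ) 2 a₀ = 0) (hta₀ : Tv.t a₀ ≠ 0)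
    (M : Rep.{u} k Γ) (hM : IsLGood 𝒱 M)
    (φ : Module.Dual k (lvlCochains 𝒱 (M.dualTwist χ) 0)) :
    ∃ a ∈ LinearMap.ker (lvlD 𝒱 M 2),
      ∃ ξ : Module.Dual k (lvlCochains 𝒱 (M.dualTwist χ) 1),
        ξ ∘ₗ (lvlD 𝒱 (M.dualTwist χ) 0) = ltheta2 Tv M a - φ := by
  have hMfin := hM.1
  have hfin0 : Module.Finite k (lvlCochains 𝒱 (M.dualTwist χ) 0) :=
    finite_lvlCochains_zero 𝒱 _ (inferInstanceAs (Module.Finite k (Module.Dual k M)))
  refine exists_dual_of_separating (k := k) (V := ↥(lvlCochains 𝒱 M 2))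
    (W := ↥(lvlCochains 𝒱 (M.dualTwist χ) 0)) (C := ↥(lvlCochains 𝒱 (M.dualTwist χ) 1))
    (lvlD 𝒱 (M.dualTwist χ) 0) (LinearMap.ker (lvlD 𝒱 M 2)) (ltheta2 Tv M) ?_ φ
  intro w hw hw0
  obtain ⟨a, ha, hne⟩ := exists_cocycle_trace_ne_zero 𝒱 χ Tv hH3 a₀ ha₀ hta₀ M hM w hw hw0
  refine ⟨a, LinearMap.mem_ker.2 ha, ?_⟩
  show - Tv.t (cupLvl 𝒱 (evPairing χ M) 2 0 a w) ≠ 0
  rw [neg_ne_zero]
  exact hne

/-! ### The statement -/

/-- `λ²` is onto (general field, general universe). -/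
theorem lTopOnto_general (Tv : LTrace 𝒱 χ)
    (hH3 : ∀ N : Rep.{u} k Γ, IsLGood 𝒱 N → IsZero (lvlH 𝒱 N 3))
    (a₀ : lvlCochains 𝒱 (muRep χ) 2) (ha₀ : lvlD 𝒱 (muRep χ) 2 a₀ = 0) (hta₀ : Tv.t a₀ ≠ 0)
    (M : Rep.{u} k Γ) (hM : IsLGood 𝒱 M) (hcv : LThetaComm Tv M) :
    Epi (HomologicalComplex.homologyMap (lthetaHom Tv M hcv) 2) := by
  rw [ModuleCat.epi_iff_surjective]
  intro z
  obtain ⟨φ, hφ, rfl⟩ := hapi_hMk_surjective _ 2 z
  obtain ⟨a, ha, ξ, hξ⟩ := exists_ltheta2_sub 𝒱 χ Tv hH3 a₀ ha₀ hta₀ M hM φ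
  refine ⟨lvlHMk 𝒱 M 2 a (LinearMap.mem_ker.1 ha), ?_⟩
  rw [lvlHMk_eq_hMk 𝒱 M 2 a (LinearMap.mem_ker.1 ha)
    ((lvlComplex_d_hom_apply 𝒱 M 2 a).trans (LinearMap.mem_ker.1 ha)),
    hapi_homologyMap_hMk', hapi_hMk_succ_eq_iff]
  refine ⟨ξ, ?_⟩
  have hd : (dualCx2 (lvlComplex 𝒱 (M.dualTwist χ))).d 1 2 =
      dualD2 (lvlComplex 𝒱 (M.dualTwist χ)) 1 :=
    CochainComplex.of_d (dualX2 (lvlComplex 𝒱 (M.dualTwist χ)))
      (dualD2 (lvlComplex 𝒱 (M.dualTwist χ))) 1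
  have key : (dualD2 (lvlComplex 𝒱 (M.dualTwist χ)) 1).hom ξ =
      ((lthetaHom Tv M hcv).f 2).hom a - φ := by
    refine LinearMap.ext fun y => ?_
    have h2 := LinearMap.congr_fun hξ y
    rw [LinearMap.comp_apply, ← lvlComplex_d_hom_apply] at h2
    exact h2
  exact (congrArg (fun f => f.hom ξ) hd).trans key

end

end Fermat.Agent.H73.LTop

namespace Fermat.Agent.H73.LTop

open Fermat.Agent.H13.Cft

/-- **[L-E2]** `LTopOntoStatement`. -/
theorem lTopOnto : LTopOntoStatement := by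
  intro p _ Γ _ 𝒱 χ _ Tv hcv hH3 h M hM
  obtain ⟨a₀, ha₀, hta₀⟩ := h
  exact lTopOnto_general 𝒱 χ Tv hH3 a₀ ha₀ hta₀ M hM (hcv M)

end Fermat.Agent.H73.LTop
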