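/-
P-CFT row 926 (BS-3), helper73: dictionary between places of `ℚ̄` and primes of a number field
`E ≤ ℚ̄`, in the language `IsUnitAt` of `Fermat.Agent.H76.Cft.BrauerSInterfaces`.
-/
import Fermat.Agent.H76.Cft.BrauerSInterfaces
import Fermat.Agent.H54.Cft.KummerLevel
import Fermat.Agent.H16.CftKummerUnram
import Fermat.Agent.H96.Cft.KummerDivisible
import Fermat.Agent.H73.KummerRamKD2

set_option autoImplicit false

noncomputable section

namespace Fermat.Agent.H73.NormElt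

open IsDedekindDomain NumberField
open Fermat.Agent.H54.Cft
open Fermat.Agent.H76.Cft (IsUnitAt IsUnitOutside IsPowValOutside sNorm QS IsPlaceOutside)
open scoped Pointwise

/-! ### `IsUnitAt` -/

theorem isUnitAt_iff (A : ValuationSubring Qbar) (x : Qbarˣ) :
    IsUnitAt A x ↔ A.valuation (x : Qbar) = 1 := by
  unfold IsUnitAt
  rw [← A.valuation_le_one_iff, ← A.valuation_le_one_iff, Units.val_inv_eq_inv_val, map_inv₀]
  have h0 : A.valuation (x : Qbar) ≠ 0 := (Valuation.ne_zero_iff _).2 x.ne_zero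
  constructor
  · rintro ⟨h1, h2⟩
    exact le_antisymm h1 ((inv_le_one₀ (zero_lt_iff.2 h0)).1 h2)
  · intro h
    rw [h]
    simp

theorem isUnitAt_one (A : ValuationSubring Qbar) : IsUnitAt A 1 := by
  rw [isUnitAt_iff]; simp

theorem isUnitAt_mul {A : ValuationSubring Qbar} {x y : Qbarˣ} (hx : IsUnitAt A x)
    (hy : IsUnitAt A y) : IsUnitAt A (x * y) := by
  rw [isUnitAt_iff] at hx hy ⊢
  rw [Units.val_mul, map_mul, hx, hy, one_mul]

theorem isUnitAt_inv {A : ValuationSubring Qbar} {x : Qbarˣ} (hx : IsUnitAt A x) :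
    IsUnitAt A x⁻¹ := by
  rw [isUnitAt_iff] at hx ⊢
  rw [Units.val_inv_eq_inv_val, map_inv₀, hx, inv_one]

theorem isUnitAt_div {A : ValuationSubring Qbar} {x y : Qbarˣ} (hx : IsUnitAt A x)
    (hy : IsUnitAt A y) : IsUnitAt A (x / y) := by
  rw [div_eq_mul_inv]
  exact isUnitAt_mul hx (isUnitAt_inv hy)

theorem isUnitAt_pow {A : ValuationSubring Qbar} {x : Qbarˣ} (hx : IsUnitAt A x) (n : ℕ) :
    IsUnitAt A (x ^ n) := by
  rw [isUnitAt_iff] at hx ⊢
  rw [Units.val_pow_eq_pow_val, map_pow, hx, one_pow]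

theorem isUnitAt_prod {A : ValuationSubring Qbar} {ι : Type*} (s : Finset ι) (f : ι → Qbarˣ)
    (h : ∀ i ∈ s, IsUnitAt A (f i)) : IsUnitAt A (∏ i ∈ s, f i) := by
  classical
  induction s using Finset.induction with
  | empty => simpa using isUnitAt_one A
  | insert i s hi ih =>
    rw [Finset.prod_insert hi]
    exact isUnitAt_mul (h i (Finset.mem_insert_self i s))
      (ih fun j hj => h j (Finset.mem_insert_of_mem hj))

theorem isUnitAt_galU_iff (g : GQ) (A : ValuationSubring Qbar) (x : Qbarˣ) :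
    IsUnitAt A (galU g x) ↔ IsUnitAt (g⁻¹ • A) x := by
  unfold IsUnitAt
  rw [Fermat.Agent.H96.Cft.mem_smul_iff, Fermat.Agent.H96.Cft.mem_smul_iff, inv_inv]
  rfl

/-! ### Units of an intermediate field inside `ℚ̄ˣ` -/

/-- The inclusion `Eˣ → ℚ̄ˣ`. -/
def toQ (E : IntermediateField ℚ Qbar) : (↥E)ˣ →* Qbarˣ :=
  Units.map ((algebraMap ↥E Qbar : ↥E →+* Qbar) : ↥E →* Qbar)

@[simp] theorem coe_toQ (E : IntermediateField ℚ Qbar) (x : (↥E)ˣ) :
    ((toQ E x : Qbarˣ) : Qbar) = (((x : (↥E)ˣ) : ↥E) : Qbar) := rfl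

/-- An element of `ℚ̄ˣ` lying in `E`, as a unit of `E`. -/
def liftU (E : IntermediateField ℚ Qbar) (x : Qbarˣ) (hx : (x : Qbar) ∈ E) : (↥E)ˣ :=
  Units.mk0 ⟨(x : Qbar), hx⟩ (fun h => x.ne_zero (congrArg Subtype.val h))

@[simp] theorem toQ_liftU (E : IntermediateField ℚ Qbar) (x : Qbarˣ) (hx : (x : Qbar) ∈ E) :
    toQ E (liftU E x hx) = x := Units.ext rfl

theorem coe_liftU (E : IntermediateField ℚ Qbar) (x : Qbarˣ) (hx : (x : Qbar) ∈ E) :
    (((liftU E x hx : (↥E)ˣ) : ↥E) : Qbar) = (x : Qbar) := rfl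

/-! ### The dictionary -/

section Dict

variable {E : IntermediateField ℚ Qbar} [NumberField ↥E] {A : ValuationSubring Qbar}
  {v : HeightOneSpectrum (𝓞 ↥E)}

/-- A `v`-unit of `E` is a unit at every place over `v`. -/
theorem isUnitAt_of_valuation_eq_one (h : LiesOverHeightOne E A v) (x : (↥E)ˣ)
    (hx : v.valuation ↥E ((x : (↥E)ˣ) : ↥E) = 1) : IsUnitAt A (toQ E x) := by
  rw [isUnitAt_iff]
  exact Fermat.Agent.H16.ku_valuation_eq_one h _ hx

theorem mem_iff_of_liesOver (h : LiesOverHeightOne E A v) (x : 𝓞 ↥E) :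
    x ∈ v.asIdeal ↔ (((x : ↥E)) : Qbar) ∈ A.nonunits := by
  refine ⟨h x, fun hx => ?_⟩
  by_contra hxv
  have h1 := Fermat.Agent.H16.ku_valuation_eq_one_of_notMem h x hxv
  rw [A.mem_nonunits_iff, h1] at hx
  exact lt_irrefl _ hx

end Dict

end Fermat.Agent.H73.NormElt

end
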