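/-
P-CFT row 926 (BS-3), helper73: the ideal-theoretic core of `NormEltStatement`.

In a Dedekind domain with finite class group, for every finitely supported family of exponents
`e` there are `m ≡ 1 mod p`, `a` and a nonzero element `β` of the fraction field with
`ord_v β = m p^a e(v)` at every prime `v`.
-/
import Fermat.Agent.H38.Cft.IdealCount

set_option autoImplicit false

noncomputable section

namespace Fermat.Agent.H73.NormElt

open IsDedekindDomain FractionalIdeal
open scoped nonZeroDivisors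
open Fermat.Agent.H93.Selmer (primeUnit)
open Fermat.Agent.H38.Cft

section Dedekind

variable {R : Type*} [CommRing R] [IsDedekindDomain R] {K : Type*} [Field K] [Algebra R K]
  [IsFractionRing R K]

open scoped Classical in
/-- The invertible ideal with exponents `e` on `T`. -/
theorem cntU_prod_primeUnit_zpow (T : Finset (HeightOneSpectrum R))
    (e : HeightOneSpectrum R → ℤ) (w : HeightOneSpectrum R) :
    cntU w (∏ v ∈ T, primeUnit K v ^ e v) = if w ∈ T then e w else 0 := by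
  rw [cntU_prod]
  simp only [cntU_zpow, cntU_primeUnit]
  split_ifs with h
  · rw [Finset.sum_eq_single w]
    · simp
    · intro v _ hv
      simp [hv]
    · intro hw
      exact absurd h hw
  · refine Finset.sum_eq_zero fun v hv => ?_
    have : v ≠ w := fun hvw => h (hvw ▸ hv)
    simp [this]

/-- `m = h₁ ^ (p - 1) ≡ 1 mod p` when `p ∤ h₁`. -/
theorem pow_pred_mod_eq_one {p : ℕ} (hp : p.Prime) {h₁ : ℕ} (h : ¬ p ∣ h₁) :
    h₁ ^ (p - 1) % p = 1 := by
  have : Fact p.Prime := ⟨hp⟩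
  have h0 : (h₁ : ZMod p) ≠ 0 := by
    rw [Ne, ZMod.natCast_eq_zero_iff]
    exact h
  have h1 : ((h₁ ^ (p - 1) : ℕ) : ZMod p) = ((1 : ℕ) : ZMod p) := by
    rw [Nat.cast_pow, ZMod.pow_card_sub_one_eq_one h0, Nat.cast_one]
  have h2 := (ZMod.natCast_eq_natCast_iff _ _ _).1 h1
  rw [Nat.ModEq] at h2
  rw [h2]
  exact Nat.one_mod_eq_one.2 hp.one_lt.ne'

/-- **Ideal core**: an element with exponents `m p^a e(v)`, `m ≡ 1 mod p`. -/
theorem exists_elt_with_exponents [Finite (ClassGroup R)] {p : ℕ} (hp : p.Prime)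
    (e : HeightOneSpectrum R → ℤ) (T : Finset (HeightOneSpectrum R))
    (he : ∀ v, v ∉ T → e v = 0) :
    ∃ (a m : ℕ) (β : Kˣ), m % p = 1 ∧
      ∀ v : HeightOneSpectrum R,
        Multiplicative.toAdd (v.valuationOfNeZero β) = -(((m * p ^ a : ℕ) : ℤ) * e v) := by
  classical
  set 𝔄 : (FractionalIdeal R⁰ K)ˣ := ∏ v ∈ T, primeUnit K v ^ e v with h𝔄
  have hcnt : ∀ w, cntU w 𝔄 = e w := by
    intro w
    rw [h𝔄, cntU_prod_primeUnit_zpow]
    split_ifs with h
    · rfl
    · exact (he w h).symm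
  have hh0 : Nat.card (ClassGroup R) ≠ 0 := Nat.card_pos.ne'
  obtain ⟨a, h₁, hph₁, hh⟩ :=
    Nat.exists_eq_pow_mul_and_not_dvd hh0 p hp.ne_one
  have hmem : 𝔄 ^ Nat.card (ClassGroup R) ∈
      (ClassGroup.mk K : (FractionalIdeal R⁰ K)ˣ →* ClassGroup R).ker := by
    rw [MonoidHom.mem_ker, map_pow, pow_card_eq_one']
  rw [classGroup_mk_ker] at hmem
  obtain ⟨β₀, hβ₀⟩ := hmem
  refine ⟨a, h₁ ^ (p - 1), β₀ ^ (h₁ ^ (p - 2)), pow_pred_mod_eq_one hp hph₁, fun v => ?_⟩
  have h1 : cntU v (toPrincipalIdeal R K (β₀ ^ (h₁ ^ (p - 2)))) =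
      ((h₁ ^ (p - 2) : ℕ) : ℤ) * (((Nat.card (ClassGroup R) : ℕ) : ℤ) * e v) := by
    rw [map_pow, hβ₀, cntU_pow, cntU_pow, hcnt]
  rw [cntU_toPrincipalIdeal] at h1
  have h2 : ((h₁ ^ (p - 1) * p ^ a : ℕ) : ℤ) =
      ((h₁ ^ (p - 2) : ℕ) : ℤ) * ((Nat.card (ClassGroup R) : ℕ) : ℤ) := by
    have h3 : h₁ ^ (p - 1) = h₁ ^ (p - 2) * h₁ := by
      rw [← pow_succ]
      congr 1
      have := hp.two_le
      omega
    rw [hh, h3]
    push_cast
    ring
  rw [h2, mul_assoc, ← h1, neg_neg]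

/-- **Ideal core, valuation form**: for a family `f v` of nonzero elements which are `v`-units
for all `v` outside a finite set, there are `m ≡ 1 mod p`, `a` and `β` with
`|β|_v = |f v|_v ^ (m p^a)` at every prime `v`. -/
theorem exists_elt_with_valuations [Finite (ClassGroup R)] {p : ℕ} (hp : p.Prime)
    (f : HeightOneSpectrum R → Kˣ) (T : Finset (HeightOneSpectrum R))
    (hf : ∀ v, v ∉ T → v.valuation K ((f v : Kˣ) : K) = 1) :
    ∃ (a m : ℕ) (β : Kˣ), m % p = 1 ∧
      ∀ v : HeightOneSpectrum R,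
        v.valuation K ((β : Kˣ) : K) = v.valuation K ((f v : Kˣ) : K) ^ (m * p ^ a) := by
  have hf' : ∀ v, v ∉ T → -Multiplicative.toAdd (v.valuationOfNeZero (f v)) = 0 := by
    intro v hv
    have h1 := hf v hv
    rw [← HeightOneSpectrum.valuationOfNeZero_eq] at h1
    have h2 : v.valuationOfNeZero (f v) = 1 := by exact_mod_cast h1
    rw [h2]
    simp
  obtain ⟨a, m, β, hm, hβ⟩ := exists_elt_with_exponents (K := K) hp
    (fun v => -Multiplicative.toAdd (v.valuationOfNeZero (f v))) T hf'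
  refine ⟨a, m, β, hm, fun v => ?_⟩
  have h1 := hβ v
  rw [← HeightOneSpectrum.valuationOfNeZero_eq, ← HeightOneSpectrum.valuationOfNeZero_eq]
  have h2 : v.valuationOfNeZero β = v.valuationOfNeZero (f v) ^ (m * p ^ a) := by
    apply Multiplicative.toAdd.injective
    rw [h1, toAdd_pow]
    simp
  rw [h2]
  push_cast
  rfl

end Dedekind

end Fermat.Agent.H73.NormElt

end
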