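/-
P-CFT row 926 (BS-3), helper73: `normElt : NormEltStatement`.

`K ≤ ℚ̄` a number field, `χ` a character of `G_K` with `χ s = 1`, `L` the fixed field of
`ker χ`, `u ∈ Kˣ` locally a norm from `L` (up to units) outside `S`.  The ideal `𝔄` of `L` which
at a prime `w` of `L` over the prime `c` of `K` equals `(z_c)` (`z_c` a local solution at one
chosen place over `c`, `z_c = 1` if `u` is a unit there) has norm `(u)` outside `S`; its
`m p^a`-th power is principal by the finiteness of the class group.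
-/
import Fermat.Agent.H73.Cft.NormEltIdeal
import Fermat.Agent.H73.Cft.NormEltDict

set_option autoImplicit false
set_option linter.style.haveILetI false

noncomputable section

namespace Fermat.Agent.H73.NormElt

open IsDedekindDomain NumberField
open Fermat.Agent.H54.Cft
open Fermat.Agent.H76.Cft (IsUnitAt IsUnitOutside IsPowValOutside sNorm QS IsPlaceOutside
  NormEltStatement)
open scoped Pointwise

/-! ### The converse dictionary -/

section Dict2

variable {E : IntermediateField ℚ Qbar} [NumberField ↥E] {A : ValuationSubring Qbar}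
  {v : HeightOneSpectrum (𝓞 ↥E)}

/-- A unit at a place over `v` is a `v`-unit. -/
theorem valuation_eq_one_of_isUnitAt (h : LiesOverHeightOne E A v) (x : (↥E)ˣ)
    (hx : IsUnitAt A (toQ E x)) : v.valuation ↥E ((x : (↥E)ˣ) : ↥E) = 1 := by
  rw [isUnitAt_iff, coe_toQ] at hx
  obtain ⟨π, hπ⟩ := v.intValuation_exists_uniformizer
  have h1 := Fermat.Agent.H73.KD2.valuation_eq_zpow h hπ x
  rw [hx] at h1
  have hπmem : π ∈ v.asIdeal := by
    rw [← HeightOneSpectrum.intValuation_lt_one_iff_mem, hπ]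
    rw [← WithZero.exp_zero, WithZero.exp_lt_exp]
    norm_num
  have hπA : A.valuation (((π : ↥E)) : Qbar) < 1 := A.mem_nonunits_iff.1 (h π hπmem)
  have hπ0 : (π : 𝓞 ↥E) ≠ 0 := by
    intro h0
    rw [h0, map_zero] at hπ
    exact WithZero.exp_ne_zero.symm hπ
  have hπQ : A.valuation (((π : ↥E)) : Qbar) ≠ 0 := by
    rw [Valuation.ne_zero_iff]
    intro h0
    apply hπ0
    have : ((π : ↥E)) = 0 := by exact_mod_cast h0
    exact_mod_cast this
  have hn : Multiplicative.toAdd (v.valuationOfNeZero x) = 0 := by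
    by_contra hne
    have h2 := (zpow_eq_one_iff_right₀ (zero_le) hπA.ne).1 h1.symm
    exact hne (neg_eq_zero.1 h2)
  rw [← HeightOneSpectrum.valuationOfNeZero_eq]
  have h3 : v.valuationOfNeZero x = 1 := by
    apply Multiplicative.toAdd.injective
    rw [hn]
    rfl
  rw [h3]
  rfl

end Dict2

/-! ### The prime of `K` below a place -/

/-- The prime of `K` below the place `A`, as a set of integers of `K`. -/
def nuK (K : IntermediateField ℚ Qbar) (A : ValuationSubring Qbar) : Set (𝓞 ↥K) :=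
  {x | (((x : ↥K)) : Qbar) ∈ A.nonunits}

theorem mem_nuK {K : IntermediateField ℚ Qbar} {A : ValuationSubring Qbar} {x : 𝓞 ↥K} :
    x ∈ nuK K A ↔ (((x : ↥K)) : Qbar) ∈ A.nonunits := Iff.rfl

/-- Conjugating by `g ∈ G_K` does not change the prime of `K` below. -/
theorem nuK_smul {K : IntermediateField ℚ Qbar} {g : GQ} (hg : g ∈ K.fixingSubgroup)
    (A : ValuationSubring Qbar) : nuK K (g • A) = nuK K A := by
  ext x
  rw [mem_nuK, mem_nuK, Fermat.Agent.H96.Cft.mem_nonunits_smul_iff]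
  have h1 : g⁻¹ ((((x : ↥K)) : Qbar)) = (((x : ↥K)) : Qbar) :=
    (IntermediateField.mem_fixingSubgroup_iff K g⁻¹).1 (inv_mem hg) _ (x : ↥K).2
  rw [h1]

/-- Units of `K` at two places over the same prime of `K`. -/
theorem isUnitAt_of_nuK_eq {S : Finset Nat.Primes} {K : IntermediateField ℚ Qbar}
    [NumberField ↥K] {A B : ValuationSubring Qbar} (hA : IsPlaceOutside S A)
    (hAB : nuK K A = nuK K B) {y : Qbarˣ} (hy : (y : Qbar) ∈ K) (h : IsUnitAt A y) :
    IsUnitAt B y := by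
  obtain ⟨q, -, hqA⟩ := hA
  obtain ⟨v, hv, -⟩ := exists_heightOne_under K A q.2 hqA
  have hvB : LiesOverHeightOne K B v := by
    intro x hx
    have h1 : x ∈ nuK K A := hv x hx
    rw [hAB] at h1
    exact h1
  have h1 : IsUnitAt A (toQ K (liftU K y hy)) := by rwa [toQ_liftU]
  have h2 := valuation_eq_one_of_isUnitAt hv _ h1
  have h3 := isUnitAt_of_valuation_eq_one hvB _ h2
  rwa [toQ_liftU] at h3

/-- Places over the same prime of `L ≥ K` lie over the same prime of `K`. -/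
theorem nuK_eq_of_liesOver {K L : IntermediateField ℚ Qbar} [NumberField ↥L] (hKL : K ≤ L)
    {A B : ValuationSubring Qbar} {w : HeightOneSpectrum (𝓞 ↥L)}
    (hA : LiesOverHeightOne L A w) (hB : LiesOverHeightOne L B w) : nuK K A = nuK K B := by
  ext x
  rw [mem_nuK, mem_nuK]
  have hx : IsIntegral ℤ (x : ↥K) := x.2
  have hx' : IsIntegral ℤ (IntermediateField.inclusion hKL (x : ↥K)) :=
    map_isIntegral_int (IntermediateField.inclusion hKL) hx
  set x' : 𝓞 ↥L := ⟨IntermediateField.inclusion hKL (x : ↥K), hx'⟩ with hx'def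
  have h1 : (((x' : ↥L)) : Qbar) = (((x : ↥K)) : Qbar) := rfl
  rw [← h1, ← mem_iff_of_liesOver hA, ← mem_iff_of_liesOver hB]

/-! ### The character on `G_K` and the norm -/

section Chi

variable {p : ℕ} {K : IntermediateField ℚ Qbar} {χ : GQ → ZMod p}

theorem chi_one (hadd : IsAddCharOn K χ) : χ 1 = 0 := by
  have h := hadd 1 (one_mem _) 1 (one_mem _)
  rw [one_mul] at h
  exact add_eq_left.1 h.symm

theorem chi_inv (hadd : IsAddCharOn K χ) {g : GQ} (hg : g ∈ K.fixingSubgroup) :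
    χ g⁻¹ = - χ g := by
  have h := hadd g hg g⁻¹ (inv_mem hg)
  rw [mul_inv_cancel, chi_one hadd] at h
  exact eq_neg_of_add_eq_zero_right h.symm

theorem chi_pow (hadd : IsAddCharOn K χ) {s : GQ} (hs : s ∈ K.fixingSubgroup) (k : ℕ) :
    χ (s ^ k) = (k : ZMod p) * χ s := by
  induction k with
  | zero => simp [chi_one hadd]
  | succ k ih =>
    rw [pow_succ, hadd _ (pow_mem hs k) _ hs, ih]
    push_cast
    ring

/-- `z` is fixed by `ker χ ∩ G_K`. -/
def IsFix (K : IntermediateField ℚ Qbar) (χ : GQ → ZMod p) (z : Qbarˣ) : Prop :=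
  ∀ n ∈ K.fixingSubgroup, χ n = 0 → galU n z = z

theorem isFix_one : IsFix K χ 1 := fun _ _ _ => map_one _

theorem galU_mul' (g h : GQ) (z : Qbarˣ) : galU (g * h) z = galU g (galU h z) :=
  Units.ext rfl

theorem galU_one' (z : Qbarˣ) : galU 1 z = z := Units.ext rfl

theorem galU_spow_shift [Fact p.Prime] (hadd : IsAddCharOn K χ) {s : GQ}
    (hs : s ∈ K.fixingSubgroup) (hχs : χ s = 1) {z : Qbarˣ} (hz : IsFix K χ z) {g : GQ}
    (hg : g ∈ K.fixingSubgroup) (k : ℕ) :
    galU g (galU (s ^ k) z) = galU (s ^ (k + (χ g).val)) z := by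
  set j := (χ g).val with hj
  have hn : (s ^ (k + j))⁻¹ * (g * s ^ k) ∈ K.fixingSubgroup :=
    mul_mem (inv_mem (pow_mem hs _)) (mul_mem hg (pow_mem hs _))
  have hχn : χ ((s ^ (k + j))⁻¹ * (g * s ^ k)) = 0 := by
    rw [hadd _ (inv_mem (pow_mem hs _)) _ (mul_mem hg (pow_mem hs _)),
      chi_inv hadd (pow_mem hs _), hadd _ hg _ (pow_mem hs _), chi_pow hadd hs,
      chi_pow hadd hs, hχs]
    push_cast
    rw [hj, ZMod.natCast_zmod_val]
    ring
  have h := hz _ hn hχn
  rw [galU_mul', galU_mul'] at h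
  have h2 := congrArg (galU (s ^ (k + j))) h
  rw [← galU_mul', mul_inv_cancel, galU_one'] at h2
  exact h2

theorem galU_spow_period [Fact p.Prime] (hadd : IsAddCharOn K χ) {s : GQ}
    (hs : s ∈ K.fixingSubgroup) (hχs : χ s = 1) {z : Qbarˣ} (hz : IsFix K χ z) (k : ℕ) :
    galU (s ^ (k + p)) z = galU (s ^ k) z := by
  have hn : s ^ p ∈ K.fixingSubgroup := pow_mem hs p
  have hχn : χ (s ^ p) = 0 := by
    rw [chi_pow hadd hs, hχs]
    simp
  rw [pow_add, galU_mul', hz _ hn hχn]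

theorem prod_range_shift {M : Type*} [CommGroup M] (f : ℕ → M) (p : ℕ)
    (hf : ∀ k, f (k + p) = f k) (j : ℕ) :
    ∏ k ∈ Finset.range p, f (k + j) = ∏ k ∈ Finset.range p, f k := by
  induction j with
  | zero => simp
  | succ j ih =>
    have h1 := Finset.prod_range_succ (fun k => f (k + j)) p
    have h2 := Finset.prod_range_succ' (fun k => f (k + j)) p
    rw [h1] at h2
    simp only [zero_add] at h2
    have h3 : f (p + j) = f j := by rw [add_comm]; exact hf j
    rw [h3] at h2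
    have h4 := mul_right_cancel h2
    rw [← ih, h4]
    refine Finset.prod_congr rfl fun k _ => ?_
    congr 1
    ring

theorem galU_sNorm [Fact p.Prime] (hadd : IsAddCharOn K χ) {s : GQ}
    (hs : s ∈ K.fixingSubgroup) (hχs : χ s = 1) {z : Qbarˣ} (hz : IsFix K χ z) {g : GQ}
    (hg : g ∈ K.fixingSubgroup) : galU g (sNorm p s z) = sNorm p s z := by
  unfold sNorm
  rw [map_prod]
  have h1 : ∀ k ∈ Finset.range p,
      galU g (galU (s ^ k) z) = galU (s ^ (k + (χ g).val)) z :=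
    fun k _ => galU_spow_shift hadd hs hχs hz hg k
  rw [Finset.prod_congr rfl h1]
  exact prod_range_shift (fun k => galU (s ^ k) z) p
    (fun k => galU_spow_period hadd hs hχs hz k) _

theorem sNorm_mem [Fact p.Prime] (hadd : IsAddCharOn K χ) {s : GQ}
    (hs : s ∈ K.fixingSubgroup) (hχs : χ s = 1) {z : Qbarˣ} (hz : IsFix K χ z) :
    ((sNorm p s z : Qbarˣ) : Qbar) ∈ K := by
  have := Fermat.Agent.H73.KD2.isGalois_Qbar_kd2
  rw [← InfiniteGalois.fixedField_fixingSubgroup K, IntermediateField.mem_fixedField_iff]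
  intro g hg
  exact congrArg Units.val (galU_sNorm hadd hs hχs hz hg)

theorem sNorm_one' (s : GQ) : sNorm p s 1 = 1 := by
  unfold sNorm
  simp

theorem sNorm_pow' (s : GQ) (z : Qbarˣ) (n : ℕ) : sNorm p s (z ^ n) = sNorm p s z ^ n := by
  unfold sNorm
  rw [← Finset.prod_pow]
  refine Finset.prod_congr rfl fun k _ => ?_
  rw [map_pow]

/-- The fixed field of `ker χ ∩ G_K`. -/
def fieldL (K : IntermediateField ℚ Qbar) (χ : GQ → ZMod p) : IntermediateField ℚ Qbar :=
  IntermediateField.fixedField (Subgroup.closure {n : GQ | n ∈ K.fixingSubgroup ∧ χ n = 0})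

theorem mem_fieldL_iff {x : Qbar} :
    x ∈ fieldL K χ ↔ ∀ n ∈ K.fixingSubgroup, χ n = 0 → n x = x := by
  unfold fieldL
  rw [IntermediateField.mem_fixedField_iff]
  constructor
  · intro h n hn hχ
    exact h n (Subgroup.subset_closure ⟨hn, hχ⟩)
  · intro h n hn
    have hle : Subgroup.closure {n : GQ | n ∈ K.fixingSubgroup ∧ χ n = 0} ≤
        MulAction.stabilizer GQ x := by
      rw [Subgroup.closure_le]
      intro m hm
      exact h m hm.1 hm.2
    exact hle hn

theorem unit_mem_fieldL_iff {z : Qbarˣ} : (z : Qbar) ∈ fieldL K χ ↔ IsFix K χ z := by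
  rw [mem_fieldL_iff]
  constructor
  · intro h n hn hχ
    exact Units.ext (h n hn hχ)
  · intro h n hn hχ
    exact congrArg Units.val (h n hn hχ)

theorem le_fieldL : K ≤ fieldL K χ := by
  intro x hx
  rw [mem_fieldL_iff]
  intro n hn _
  exact (IntermediateField.mem_fixingSubgroup_iff K n).1 hn x hx

theorem fieldL_le_sup {F : IntermediateField ℚ Qbar}
    (hF : ∀ s ∈ F.fixingSubgroup, s ∈ K.fixingSubgroup → χ s = 0) : fieldL K χ ≤ K ⊔ F := by
  have := Fermat.Agent.H73.KD2.isGalois_Qbar_kd2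
  intro x hx
  rw [← InfiniteGalois.fixedField_fixingSubgroup (K ⊔ F), IntermediateField.mem_fixedField_iff]
  intro g hg
  rw [IntermediateField.fixingSubgroup_sup] at hg
  exact (mem_fieldL_iff.1 hx) g hg.1 (hF g hg.2 hg.1)

end Chi

/-! ### The local choices -/

theorem sNorm_div' {p : ℕ} (s : GQ) (x y : Qbarˣ) :
    sNorm p s (x / y) = sNorm p s x / sNorm p s y := by
  unfold sNorm
  rw [← Finset.prod_div_distrib]
  refine Finset.prod_congr rfl fun k _ => ?_
  rw [map_div]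

/-- One local solution `z_c` for every prime `c` of `K` outside `S`, with `z_c = 1` where `u` is
a unit. -/
theorem exists_local_choice {p : ℕ} [Fact p.Prime] {S : Finset Nat.Primes}
    {K : IntermediateField ℚ Qbar} [NumberField ↥K] {χ : GQ → ZMod p}
    (hadd : IsAddCharOn K χ) {s : GQ} (hs : s ∈ K.fixingSubgroup) (hχs : χ s = 1)
    {u : Qbarˣ} (hu : (u : Qbar) ∈ K)
    (hloc : ∀ A : ValuationSubring Qbar, IsPlaceOutside S A →
      ∃ z : Qbarˣ, IsFix K χ z ∧ IsUnitAt A (u / sNorm p s z)) :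
    ∃ zc : Set (𝓞 ↥K) → Qbarˣ, (∀ c, IsFix K χ (zc c)) ∧
      (∀ B, IsPlaceOutside S B → IsUnitAt B (u / sNorm p s (zc (nuK K B)))) ∧
      (∀ B, IsPlaceOutside S B → IsUnitAt B u → zc (nuK K B) = 1) := by
  classical
  have key : ∀ c : Set (𝓞 ↥K), ∃ z : Qbarˣ, IsFix K χ z ∧
      (∀ B, IsPlaceOutside S B → nuK K B = c → IsUnitAt B (u / sNorm p s z)) ∧
      (∀ B, IsPlaceOutside S B → nuK K B = c → IsUnitAt B u → z = 1) := by
    intro c
    by_cases hc : ∃ A, IsPlaceOutside S A ∧ nuK K A = c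
    · obtain ⟨A, hA, rfl⟩ := hc
      by_cases hAu : IsUnitAt A u
      · refine ⟨1, isFix_one, fun B hB hBc => ?_, fun _ _ _ _ => rfl⟩
        rw [sNorm_one', div_one]
        exact isUnitAt_of_nuK_eq hA hBc.symm hu hAu
      · obtain ⟨z, hz, hzu⟩ := hloc A hA
        have hmem : (((u / sNorm p s z : Qbarˣ)) : Qbar) ∈ K := by
          rw [Units.val_div_eq_div_val]
          exact K.div_mem hu (sNorm_mem hadd hs hχs hz)
        refine ⟨z, hz, fun B hB hBc => isUnitAt_of_nuK_eq hA hBc.symm hmem hzu,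
          fun B hB hBc hBu => ?_⟩
        exact absurd (isUnitAt_of_nuK_eq hB hBc hu hBu) hAu
    · exact ⟨1, isFix_one, fun B hB hBc => absurd ⟨B, hB, hBc⟩ hc, fun _ _ _ _ => rfl⟩
  choose zc h1 h2 h3 using key
  exact ⟨zc, h1, fun B hB => h2 _ B hB rfl, fun B hB hBu => h3 _ B hB rfl hBu⟩

/-! ### The main theorem -/

/-- **[B2] (norm elements; class group)**. -/
theorem normElt : NormEltStatement := by
  intro p _ S _ K hK χ hχ s hs hχs u hu hloc
  obtain ⟨hadd, F, hF, hFχ⟩ := hχ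
  haveI : FiniteDimensional ℚ ↥K := hK.1
  haveI : NumberField ↥K := ⟨⟩
  obtain ⟨zc, hzc1, hzc2, hzc3⟩ := exists_local_choice hadd hs hχs hu hloc
  -- the field `L`
  have hKL : K ≤ fieldL K χ := le_fieldL
  have hLunr : (fieldL K χ).IsUnramifiedOutside S := (hK.sup hF).of_le (fieldL_le_sup hFχ)
  haveI : FiniteDimensional ℚ ↥(fieldL K χ) := hLunr.1
  haveI : NumberField ↥(fieldL K χ) := ⟨⟩
  have hLQS : fieldL K χ ≤ QS S := by
    unfold QS
    exact le_iSup
      (fun F : {F : IntermediateField ℚ (AlgebraicClosure ℚ) // F.IsUnramifiedOutside S} => F.1)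
      ⟨fieldL K χ, hLunr⟩
  have hzcL : ∀ c, ((zc c : Qbarˣ) : Qbar) ∈ fieldL K χ := fun c =>
    unit_mem_fieldL_iff.2 (hzc1 c)
  -- the local generators of the ideal
  have hf : ∀ w : HeightOneSpectrum (𝓞 ↥(fieldL K χ)), ∃ y : (↥(fieldL K χ))ˣ,
      (∀ B, IsPlaceOutside S B → LiesOverHeightOne (fieldL K χ) B w →
        toQ (fieldL K χ) y = zc (nuK K B)) ∧
      ((¬ ∃ B, IsPlaceOutside S B ∧ LiesOverHeightOne (fieldL K χ) B w) → y = 1) := by
    intro w
    by_cases hw : ∃ B, IsPlaceOutside S B ∧ LiesOverHeightOne (fieldL K χ) B w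
    · obtain ⟨B₀, hB₀, hB₀w⟩ := hw
      refine ⟨liftU (fieldL K χ) (zc (nuK K B₀)) (hzcL _), fun B hB hBw => ?_,
        fun h => absurd ⟨B₀, hB₀, hB₀w⟩ h⟩
      rw [toQ_liftU, nuK_eq_of_liesOver hKL hB₀w hBw]
    · exact ⟨1, fun B hB hBw => absurd ⟨B, hB, hBw⟩ hw, fun _ => rfl⟩
  choose f hf1 hf2 using hf
  -- finiteness of the support
  have hfin : {w : HeightOneSpectrum (𝓞 ↥(fieldL K χ)) |
      w.valuation ↥(fieldL K χ) ((liftU (fieldL K χ) u (hKL hu) : (↥(fieldL K χ))ˣ) :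
        ↥(fieldL K χ)) ≠ 1}.Finite := by
    have h1 := HeightOneSpectrum.Support.finite (𝓞 ↥(fieldL K χ))
      ((liftU (fieldL K χ) u (hKL hu) : (↥(fieldL K χ))ˣ) : ↥(fieldL K χ))
    have h2 := HeightOneSpectrum.Support.finite (𝓞 ↥(fieldL K χ))
      (((liftU (fieldL K χ) u (hKL hu))⁻¹ : (↥(fieldL K χ))ˣ) : ↥(fieldL K χ))
    refine (h1.union h2).subset fun w hw => ?_
    rw [Set.mem_ofPred_eq] at hw
    rcases lt_or_gt_of_ne hw with h | h
    · right
      show 1 < w.valuation ↥(fieldL K χ) _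
      rw [Units.val_inv_eq_inv_val, map_inv₀]
      exact (one_lt_inv₀ (zero_lt_iff.2 ((Valuation.ne_zero_iff _).2 (Units.ne_zero _)))).2 h
    · left
      exact h
  have hfT : ∀ w, w ∉ hfin.toFinset →
      w.valuation ↥(fieldL K χ) ((f w : (↥(fieldL K χ))ˣ) : ↥(fieldL K χ)) = 1 := by
    intro w hw
    rw [Set.Finite.mem_toFinset, Set.mem_ofPred_eq, not_not] at hw
    by_cases hvis : ∃ B, IsPlaceOutside S B ∧ LiesOverHeightOne (fieldL K χ) B w
    · obtain ⟨B, hB, hBw⟩ := hvis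
      have h1 : IsUnitAt B u := by
        have := isUnitAt_of_valuation_eq_one hBw _ hw
        rwa [toQ_liftU] at this
      have h2 := hzc3 B hB h1
      have h3 := hf1 w B hB hBw
      rw [h2] at h3
      apply valuation_eq_one_of_isUnitAt hBw
      rw [h3]
      exact isUnitAt_one B
    · rw [hf2 w hvis]
      simp
  obtain ⟨a, m, β', hm, hβ'⟩ := exists_elt_with_valuations (R := 𝓞 ↥(fieldL K χ))
    (K := ↥(fieldL K χ)) (Fact.out : p.Prime) f hfin.toFinset hfT
  -- the key claim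
  have KC : ∀ B, IsPlaceOutside S B →
      IsUnitAt B (toQ (fieldL K χ) β' / zc (nuK K B) ^ (m * p ^ a)) := by
    intro B hB
    obtain ⟨q, hqS, hqB⟩ := hB
    obtain ⟨w, hBw, -⟩ := exists_heightOne_under (fieldL K χ) B q.2 hqB
    have h1 := hβ' w
    have h2 : w.valuation ↥(fieldL K χ)
        (((β' / f w ^ (m * p ^ a) : (↥(fieldL K χ))ˣ)) : ↥(fieldL K χ)) = 1 := by
      rw [Units.val_div_eq_div_val, Units.val_pow_eq_pow_val, map_div₀, map_pow, h1]
      exact div_self (pow_ne_zero _ ((Valuation.ne_zero_iff _).2 (f w).ne_zero))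
    have h3 := isUnitAt_of_valuation_eq_one hBw _ h2
    rw [map_div, map_pow, hf1 w B ⟨q, hqS, hqB⟩ hBw] at h3
    exact h3
  refine ⟨a, m, toQ (fieldL K χ) β', hm, ?_, ?_, ?_⟩
  · have h1 : ((toQ (fieldL K χ) β' : Qbarˣ) : Qbar) ∈ fieldL K χ := (β' : ↥(fieldL K χ)).2
    exact unit_mem_fieldL_iff.1 h1
  · intro A hA
    refine ⟨zc (nuK K A) ^ m, ?_, ?_⟩
    · rw [Units.val_pow_eq_pow_val]
      exact pow_mem (hLQS (hzcL _)) m
    · rw [← pow_mul]
      exact KC A hA
  · intro A hA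
    have h1 : ∀ k ∈ Finset.range p, IsUnitAt A
        (galU (s ^ k) (toQ (fieldL K χ) β' / zc (nuK K A) ^ (m * p ^ a))) := by
      intro k _
      rw [isUnitAt_galU_iff]
      have hsk : (s ^ k)⁻¹ ∈ K.fixingSubgroup := inv_mem (pow_mem hs k)
      have h := KC ((s ^ k)⁻¹ • A) (Fermat.Agent.H96.Cft.isPlaceOutside_smul _ hA)
      rwa [nuK_smul hsk] at h
    have h2 : IsUnitAt A (sNorm p s (toQ (fieldL K χ) β' / zc (nuK K A) ^ (m * p ^ a))) :=
      isUnitAt_prod _ _ h1
    have h3 : IsUnitAt A (u / sNorm p s (zc (nuK K A))) := hzc2 A hA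
    have h4 : u ^ (m * p ^ a) / sNorm p s (toQ (fieldL K χ) β') =
        (u / sNorm p s (zc (nuK K A))) ^ (m * p ^ a) /
          sNorm p s (toQ (fieldL K χ) β' / zc (nuK K A) ^ (m * p ^ a)) := by
      rw [sNorm_div', sNorm_pow', div_pow, div_div_div_cancel_right]
    rw [h4]
    exact isUnitAt_div (isUnitAt_pow h3 _) h2

end Fermat.Agent.H73.NormElt

end
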