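/-
P-CFT row 1028 (PAIR-MU), helper73: `muLocDict : Fermat.Agent.H43.Cft.MuLocDictStatement`.

For `ζ_p ∈ K` a `ZMod p`-valued 2-cochain `x` of `G_K` is locally trivial at the place `A` in the
sense of helper54 (coboundary of a level `ZMod p`-valued cochain on `D_A ∩ G_K`) iff `ζ ^ x` is
locally trivial at `A` in the sense of helper97 (coboundary of a level `ℚ̄ˣ`-valued cochain on
`Gal(ℚ̄ / K ⊔ decField A)`).  Key fact: `G_{K ⊔ decField A} = G_K ∩ D_A` (`decClosed`);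
`(→)` is formal, `(←)` is `μ_p`-descent (`muDescent`).
-/
import Fermat.Agent.H43.Cft.PairRealInterfaces
import Fermat.Agent.H57.CFT.H90Lvl
import Fermat.Agent.H89.Hasse.DecField
import Fermat.Agent.H21.Cft.BridgeLevels

set_option autoImplicit false
set_option linter.style.haveILetI false

noncomputable section

namespace Fermat.Agent.H73.PairMu

open Fermat.Agent.H13.Cft Fermat.Agent.H78.CFT Fermat.Agent.H97.Hasse
open Fermat.Agent.H54.Cft (IsLocTrivAt GalL)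

/-! ### Powers of a root of unity indexed by `ZMod p` -/

section Pow

variable {p : ℕ} [NeZero p] {M : Type*} [Group M] (ζ : M) (hζ : ζ ^ p = 1)

include hζ in
theorem pow_val_add (a b : ZMod p) : ζ ^ (a + b).val = ζ ^ a.val * ζ ^ b.val := by
  rw [ZMod.val_add, ← pow_add]
  exact (pow_eq_pow_mod _ hζ).symm

include hζ in
theorem pow_val_neg (a : ZMod p) : ζ ^ (-a).val = (ζ ^ a.val)⁻¹ := by
  have h := pow_val_add ζ hζ a (-a)
  rw [add_neg_cancel, ZMod.val_zero, pow_zero] at h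
  exact eq_inv_of_mul_eq_one_right h.symm

include hζ in
theorem pow_val_cob (a b c : ZMod p) :
    ζ ^ (b - c + a).val = ζ ^ b.val * ζ ^ a.val / ζ ^ c.val := by
  rw [sub_eq_add_neg, pow_val_add ζ hζ, pow_val_add ζ hζ, pow_val_neg ζ hζ, div_eq_mul_inv,
    mul_assoc, mul_assoc]
  congr 1
  -- `(ζ^c)⁻¹ * ζ^a = ζ^a * (ζ^c)⁻¹`: powers of `ζ` commute
  have hc : Commute (ζ ^ c.val)⁻¹ (ζ ^ a.val) :=
    ((Commute.refl ζ).pow_pow c.val a.val).inv_left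
  exact hc.eq

end Pow

/-! ### The local group -/

theorem mem_fixingSubgroup_locFieldAt {K : IntermediateField ℚ Qb} {q : ℕ} (hq : q.Prime)
    {A : ValuationSubring Qb} (hA : A.LiesOverPrime q) (σ : Qb ≃ₐ[ℚ] Qb) :
    σ ∈ (locFieldAt K A).fixingSubgroup ↔
      σ ∈ K.fixingSubgroup ∧ σ ∈ A.decompositionSubgroup ℚ := by
  unfold locFieldAt
  rw [IntermediateField.fixingSubgroup_sup, Subgroup.mem_inf,
    Fermat.Agent.H89.Hasse.decClosed q hq A hA]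

/-! ### The two directions -/

section Main

variable {p : ℕ} [Fact p.Prime] {K : IntermediateField ℚ Qb} {ζ : Qbˣ}
  {q : ℕ} {A : ValuationSubring Qb}

theorem actU_eq_self_of_mem {E : IntermediateField ℚ Qb} {z : Qbˣ} (hz : (z : Qb) ∈ E)
    (g : E.fixingSubgroup) : actU (g : Qb ≃ₐ[ℚ] Qb) z = z :=
  Units.ext ((IntermediateField.mem_fixingSubgroup_iff E (g : Qb ≃ₐ[ℚ] Qb)).1 g.2 _ hz)

/-- `(→)`: formal. -/
theorem locTrivAtE_of_locTrivAt (hζ : IsPrimitiveRoot (ζ : Qb) p) (hζK : (ζ : Qb) ∈ K)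
    (hq : q.Prime) (hA : A.LiesOverPrime q) (x : GalL K × GalL K → ZMod p)
    (h : IsLocTrivAt K A x) : IsLocTrivAtE K A (zetaPow ζ x) := by
  have hp : p.Prime := Fact.out
  haveI : NeZero p := ⟨hp.ne_zero⟩
  have hζp : ζ ^ p = 1 := Units.ext (by simpa using hζ.pow_eq_one)
  obtain ⟨y, ⟨F, hF, hyF⟩, hy⟩ := h
  haveI := hF
  obtain ⟨N, hN, hNF⟩ := Fermat.Agent.H21.Cft.exists_pullbackLevel_le
    (locFieldAt K A).fixingSubgroup.subtype F
  have hD : ∀ g : (locFieldAt K A).fixingSubgroup,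
      ((incl (le_locFieldAt K A) g : K.fixingSubgroup) : Qb ≃ₐ[ℚ] Qb) ∈
        A.decompositionSubgroup ℚ :=
    fun g => ((mem_fixingSubgroup_locFieldAt hq hA _).1 g.2).2
  refine ⟨fun g => ζ ^ (y (incl (le_locFieldAt K A) g)).val, ⟨N, hN, fun g n hn => ?_⟩,
    fun gh => ?_⟩
  · have hn' : ((incl (le_locFieldAt K A) n : K.fixingSubgroup) : Qb ≃ₐ[ℚ] Qb) ∈
        F.fixingSubgroup := hNF hn
    show ζ ^ (y (incl (le_locFieldAt K A) (g * n))).val =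
      ζ ^ (y (incl (le_locFieldAt K A) g)).val
    rw [map_mul, hyF _ _ (hD g) (hD n) hn']
  · obtain ⟨g, k⟩ := gh
    show actU (g : Qb ≃ₐ[ℚ] Qb) (ζ ^ (y (incl (le_locFieldAt K A) k)).val) *
        ζ ^ (y (incl (le_locFieldAt K A) g)).val /
        ζ ^ (y (incl (le_locFieldAt K A) (g * k))).val =
      ζ ^ (x (incl (le_locFieldAt K A) g, incl (le_locFieldAt K A) k)).val
    rw [hy _ _ (hD g) (hD k), map_pow,
      actU_eq_self_of_mem (le_locFieldAt K A hζK) g, pow_val_cob ζ hζp, map_mul]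

/-- `(←)`: `μ_p`-descent. -/
theorem locTrivAt_of_locTrivAtE (hζ : IsPrimitiveRoot (ζ : Qb) p) (hζK : (ζ : Qb) ∈ K)
    (hq : q.Prime) (hA : A.LiesOverPrime q) (x : GalL K × GalL K → ZMod p)
    (h : IsLocTrivAtE K A (zetaPow ζ x)) : IsLocTrivAt K A x := by
  classical
  have h1 : IsLvlCoboundary₂ (lvlE (locFieldAt K A)) (resCochain₂ (le_locFieldAt K A) x) :=
    Fermat.Agent.H57.CFT.muDescent p (locFieldAt K A) ζ hζ (le_locFieldAt K A hζK) _ h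
  obtain ⟨y0, ⟨N, hN, hy0N⟩, hy0⟩ := h1
  obtain ⟨-, -, F, hF, hFN⟩ := hN
  have hE : ∀ g : GalL K, (g : Qb ≃ₐ[ℚ] Qb) ∈ A.decompositionSubgroup ℚ →
      (g : Qb ≃ₐ[ℚ] Qb) ∈ (locFieldAt K A).fixingSubgroup :=
    fun g hg => (mem_fixingSubgroup_locFieldAt hq hA _).2 ⟨g.2, hg⟩
  refine ⟨fun g => if hg : (g : Qb ≃ₐ[ℚ] Qb) ∈ A.decompositionSubgroup ℚ then
      y0 ⟨(g : Qb ≃ₐ[ℚ] Qb), hE g hg⟩ else 0, ⟨F, hF, fun g n hg hn hnF => ?_⟩,
    fun g k hg hk => ?_⟩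
  · have hgn : ((g * n : GalL K) : Qb ≃ₐ[ℚ] Qb) ∈ A.decompositionSubgroup ℚ :=
      mul_mem hg hn
    beta_reduce
    rw [dif_pos hg, dif_pos hgn]
    have hnN : (⟨(n : Qb ≃ₐ[ℚ] Qb), hE n hn⟩ : (locFieldAt K A).fixingSubgroup) ∈ N :=
      hFN hnF
    exact hy0N ⟨(g : Qb ≃ₐ[ℚ] Qb), hE g hg⟩ _ hnN
  · have hgk : ((g * k : GalL K) : Qb ≃ₐ[ℚ] Qb) ∈ A.decompositionSubgroup ℚ :=
      mul_mem hg hk
    beta_reduce
    rw [dif_pos hg, dif_pos hk, dif_pos hgk]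
    exact (hy0 ⟨(g : Qb ≃ₐ[ℚ] Qb), hE g hg⟩ ⟨(k : Qb ≃ₐ[ℚ] Qb), hE k hk⟩).symm

/-- **[PAIR-MU]** -/
theorem muLocDict : Fermat.Agent.H43.Cft.MuLocDictStatement := by
  intro p _ K ζ hζ hζK q hq A hA x
  exact ⟨locTrivAtE_of_locTrivAt hζ hζK hq hA x, locTrivAt_of_locTrivAtE hζ hζK hq hA x⟩

end Main

end Fermat.Agent.H73.PairMu

end
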