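/-
P-CFT rows 927/932 (GO2-DIV), helper73: [P2] `AbstractCobStatement` of `Fermat.Agent.H80.Div`:
`H¹(G, ℤ^X) = 0` explicitly for a right action and a cocycle with finitely many values
(orbit representatives; a homomorphism `Stab(x) → ℤ` with finitely many values vanishes).
-/
import Fermat.Agent.H80.CFT.DivInterfaces

set_option autoImplicit false

noncomputable section

namespace Fermat.Agent.H73.NormElt

/-- The stabiliser of `x` is killed by a cocycle with finitely many values. -/
theorem cocycle_stab_eq_zero {G X : Type} [Group G] (act : G → X → X)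
    (h1 : ∀ x, act 1 x = x) (hmul : ∀ g h x, act (g * h) x = act h (act g x))
    (φ : G → X → ℤ) (hφ : ∀ g h x, φ (g * h) x = φ g x + φ h (act g x))
    (hfin : (Set.range φ).Finite) (x : X) (k : G) (hk : act k x = x) : φ k x = 0 := by
  by_contra hne
  have hpow_act : ∀ j : ℕ, act (k ^ j) x = x := by
    intro j
    induction j with
    | zero => rw [pow_zero]; exact h1 x
    | succ j ih => rw [pow_succ, hmul, ih, hk]
  have hone : φ 1 x = 0 := by
    have h := hφ 1 1 x
    rw [one_mul, h1] at h
    linarith
  have hpow : ∀ j : ℕ, φ (k ^ j) x = (j : ℤ) * φ k x := by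
    intro j
    induction j with
    | zero => rw [pow_zero, hone]; simp
    | succ j ih =>
      rw [pow_succ, hφ, ih, hpow_act]
      push_cast
      ring
  have hinj : Function.Injective (fun j : ℕ => φ (k ^ j)) := by
    intro i j hij
    have h := congrFun hij x
    simp only [hpow] at h
    have h' := mul_right_cancel₀ hne h
    exact_mod_cast h'
  exact Set.infinite_of_injective_forall_mem hinj (fun j => Set.mem_range_self _) hfin

/-- **[P2]** `AbstractCobStatement`. -/
theorem abstractCob : Fermat.Agent.H80.Div.AbstractCobStatement := by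
  intro G X _ act h1 hmul φ hφ hfin
  classical
  have hstab := cocycle_stab_eq_zero act h1 hmul φ hφ hfin
  let r : Setoid X :=
    { r := fun x y => ∃ g, act g x = y
      iseqv :=
        ⟨fun x => ⟨1, h1 x⟩,
          fun {x y} ⟨g, hg⟩ => ⟨g⁻¹, by rw [← hg, ← hmul, mul_inv_cancel, h1]⟩,
          fun {x y z} ⟨g, hg⟩ ⟨h, hh⟩ => ⟨g * h, by rw [hmul, hg, hh]⟩⟩ }
  have hrep : ∀ x, ∃ k, act k x = (Quotient.mk r x).out := by
    intro x
    have h : r (Quotient.mk r x).out x := Quotient.exact (Quotient.out_eq _)
    exact r.symm h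
  choose kx hkx using hrep
  have key : ∀ x a b, act a x = act b x → φ a x = φ b x := by
    intro x a b hab
    have hc : act (a * b⁻¹) x = x := by rw [hmul, hab, ← hmul, mul_inv_cancel, h1]
    have h := hφ (a * b⁻¹) b x
    rw [inv_mul_cancel_right, hstab x _ hc, hc, zero_add] at h
    exact h
  refine ⟨fun x => - φ (kx x) x, fun g x => ?_, fun x hx => ⟨kx x, fun h => hx ?_⟩⟩
  · have hsame : Quotient.mk r (act g x) = Quotient.mk r x :=
      Quotient.sound (r.symm ⟨g, rfl⟩)
    have h2 : act (g * kx (act g x)) x = (Quotient.mk r x).out := by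
      rw [hmul, hkx, hsame]
    have h3 := key x (g * kx (act g x)) (kx x) (by rw [h2, hkx])
    rw [hφ] at h3
    show φ g x = - φ (kx (act g x)) (act g x) - - φ (kx x) x
    linarith
  · show - φ (kx x) x = 0
    rw [h, neg_zero]

end Fermat.Agent.H73.NormElt

end
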