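/-
P-CFT rows 927/932 (GO2-DIV), helper73: [P1] `PrincipalizeStatement` of
`Fermat.Agent.H80.Div` -- a multiple of a divisor of a number field is principal.
Corollary of `Fermat.Agent.H73.NormElt.exists_elt_with_exponents` (class group exponent).
-/
import Fermat.Agent.H73.Cft.NormEltIdeal
import Fermat.Agent.H80.CFT.DivInterfaces

set_option autoImplicit false

noncomputable section

namespace Fermat.Agent.H73.NormElt

open IsDedekindDomain NumberField

/-- **[P1]** principalization, with `n = m p^a`, `m ≡ 1 mod p`, for any prime `p`. -/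
theorem principalize_prime {K : Type} [Field K] [NumberField K] {p : ℕ} (hp : p.Prime)
    (D : HeightOneSpectrum (𝓞 K) → ℤ) (hD : (Function.support D).Finite) :
    ∃ (a m : ℕ) (β : Kˣ), m % p = 1 ∧
      ∀ w : HeightOneSpectrum (𝓞 K),
        Multiplicative.toAdd (w.valuationOfNeZero β) = ((m * p ^ a : ℕ) : ℤ) * D w := by
  obtain ⟨a, m, β, hm, hβ⟩ := exists_elt_with_exponents (R := 𝓞 K) (K := K) hp
    (fun v => - D v) hD.toFinset (fun v hv => by
      rw [Set.Finite.mem_toFinset, Function.mem_support, not_not] at hv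
      rw [hv, neg_zero])
  refine ⟨a, m, β, hm, fun w => ?_⟩
  rw [hβ w]
  ring

/-- **[P1]** `PrincipalizeStatement`. -/
theorem principalize : Fermat.Agent.H80.Div.PrincipalizeStatement := by
  intro K _ _ D hD
  obtain ⟨a, m, β, hm, hβ⟩ := principalize_prime (K := K) Nat.prime_two D hD
  refine ⟨m * 2 ^ a, β, ?_, hβ⟩
  have hm0 : 0 < m := by
    rcases Nat.eq_zero_or_pos m with h | h
    · rw [h] at hm
      simp at hm
    · exact h
  positivity

end Fermat.Agent.H73.NormElt

end
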