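/-
P-CFT row 981 (GA-U), helper73: the adapter between the two U-languages,
`gaU_of_bdPairsU : H13.Cft.BdPairsUStatement → H85.ULang.GaUStatement`
(existence of a finite system of double coset representatives for a subgroup of finite index;
`IsLocTrivU` and `IsLocTriv₂` agree definitionally).
-/
import Fermat.Agent.H85.Cft.ULang
import Fermat.Agent.H13.Cft.ULang
import Fermat.Agent.H78.CFT.OrbitCount

set_option autoImplicit false

noncomputable section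

namespace Fermat.Agent.H73.GaDict

open Fermat.Agent.H13.Cft Fermat.Agent.H97.Shap Fermat.Agent.H78.CFT ExtCitation

/-- A system of representatives of the double cosets `U \ G / loc(Γ)`. -/
theorem exists_doubleCosetReps_set {G Γ : Type} [Group G] [Group Γ] (loc : Γ →* G)
    (U : Subgroup G) :
    ∃ R : Set G, ∀ x : G, ∃! g : G, g ∈ R ∧ ∃ (u : U) (γ : Γ), x = u * g * loc γ := by
  classical
  let r : Setoid G :=
    { r := fun x y => ∃ (u : U) (γ : Γ), y = u * x * loc γ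
      iseqv :=
        ⟨fun x => ⟨1, 1, by simp⟩,
          fun {x y} ⟨u, γ, h⟩ => ⟨u⁻¹, γ⁻¹, by
            rw [h, map_inv]
            push_cast
            group⟩,
          fun {x y z} ⟨u, γ, h⟩ ⟨u', γ', h'⟩ => ⟨u' * u, γ * γ', by
            rw [h', h, map_mul]
            push_cast
            group⟩⟩ }
  refine ⟨Set.range fun c : Quotient r => c.out, fun x => ?_⟩
  refine ⟨(Quotient.mk r x).out, ⟨⟨_, rfl⟩, ?_⟩, ?_⟩
  · exact Quotient.exact (Quotient.out_eq (Quotient.mk r x))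
  · rintro g ⟨⟨c, rfl⟩, hg⟩
    have h1 : Quotient.mk r c.out = Quotient.mk r x := Quotient.sound hg
    rw [Quotient.out_eq] at h1
    rw [h1]

/-- A FINITE system of representatives of the double cosets `U \ G / loc(Γ)`, `U` of finite
index. -/
theorem exists_doubleCosetReps {G Γ : Type} [Group G] [Group Γ] (loc : Γ →* G)
    (U : Subgroup G) [U.FiniteIndex] :
    ∃ R : Finset G, ∀ x : G, ∃! g : G, g ∈ (R : Set G) ∧ ∃ (u : U) (γ : Γ),
      x = u * g * loc γ := by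
  obtain ⟨R, hR⟩ := exists_doubleCosetReps_set loc U
  have hfin : R.Finite := mackeyReps_finite (loc := loc) (U := U) (R := R) hR
  refine ⟨hfin.toFinset, ?_⟩
  rw [Set.Finite.coe_toFinset]
  exact hR

/-- The pair classes in helper13's shape give helper85's `GaUAt`. -/
theorem gaUAt_of_pairs {G : Type} [Group G] (p : ℕ) [Fact p.Prime]
    (𝔄 : ArithDatum (ZMod p) G) (v₀ : 𝔄.ι) (N : Subgroup G)
    (hN : ∃ N' ∈ 𝔄.lvl.sets, N' ≤ N) [N.FiniteIndex]
    (hpairs : ∀ g g' : G, ¬ SamePlace 𝔄 N v₀ g g' →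
      ∃ c : N × N → ZMod p, IsLvl₂ (𝔄.lvl.restrict N hN) c ∧ IsTrivCocycle₂ c ∧
        (∀ (v : 𝔄.ι) (h : G),
          (v ≠ v₀ ∨ (¬ SamePlace 𝔄 N v₀ g h ∧ ¬ SamePlace 𝔄 N v₀ g' h)) →
            IsLocTriv₂ 𝔄 N hN c v h) ∧
        ¬ (IsLocTriv₂ 𝔄 N hN c v₀ g ∧ IsLocTriv₂ 𝔄 N hN c v₀ g')) :
    Fermat.Agent.H85.ULang.GaUAt p 𝔄 v₀ N hN := by
  obtain ⟨R, hR⟩ := exists_doubleCosetReps (𝔄.loc v₀) N
  refine ⟨R, hR, fun g₁ hg₁ g₂ hg₂ hne => ?_⟩
  have hself : ∀ g : G, ∃ (u : N) (γ : 𝔄.Γ v₀), g = u * g * 𝔄.loc v₀ γ :=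
    fun g => ⟨1, 1, by simp⟩
  have huniq : ∀ g ∈ R, ∀ g' ∈ R, SamePlace 𝔄 N v₀ g g' → g = g' := by
    intro g hg g' hg' hs
    exact (hR g').unique ⟨hg, hs⟩ ⟨hg', hself g'⟩
  obtain ⟨c, hc1, hc2, hc3, hc4⟩ := hpairs g₁ g₂ (fun hs => hne (huniq g₁ hg₁ g₂ hg₂ hs))
  exact ⟨c, hc1, hc2, fun v hv g => hc3 v g (Or.inl hv), fun g hg hg1 hg2 =>
    hc3 _ g (Or.inr ⟨fun hs => hg1 (huniq g₁ hg₁ g hg hs).symm,
      fun hs => hg2 (huniq g₂ hg₂ g hg hs).symm⟩), hc4⟩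

/-- **Adapter**: helper13's `[GA'-U]` gives helper85's `[GA'-U]`. -/
theorem gaU_of_bdPairsU (h : BdPairsUStatement) : Fermat.Agent.H85.ULang.GaUStatement := by
  intro p _ hp2 S hpS hχ N₀ hN₀
  obtain ⟨N, hN, hle, hcyc, hpairs⟩ := h p hp2 S hpS hχ N₀ hN₀
  refine ⟨N, hN, hle, hcyc, ?_⟩
  have hfi : N.FiniteIndex := (globalLevelSys S).finiteIndex N hN
  exact gaUAt_of_pairs p (arithDatumQ p S hχ) ⟨pPrime p, hpS⟩ N ⟨N, hN, le_rfl⟩ hpairs

end Fermat.Agent.H73.GaDict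

end
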